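import Mathlib
import Fermat.Prelude.Def_EllipticCurve_FrobeniusTrace

/-!
Existence of Frobenius elements in `Gal(ℚ̄/ℚ)` at every valuation subring of `ℚ̄` lying over a
rational prime.
-/

set_option autoImplicit false
set_option linter.style.haveILetI false
set_option linter.unusedSectionVars false
set_option linter.unusedSimpArgs false
set_option linter.deprecated false

namespace Fermat.Agent.S54

open Polynomial Pointwise



section horner

variable {L : Type*} [Field L] (A : ValuationSubring L)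

theorem nonunits_add {x y : L} (hx : x ∈ A.nonunits) (hy : y ∈ A.nonunits) :
    x + y ∈ A.nonunits := by
  rw [ValuationSubring.mem_nonunits_iff] at *
  exact lt_of_le_of_lt (A.valuation.map_add x y) (max_lt hx hy)

theorem nonunits_mul_mem {x y : L} (hx : x ∈ A.nonunits) (hy : y ∈ A) :
    x * y ∈ A.nonunits := by
  rw [ValuationSubring.mem_nonunits_iff] at *
  rw [map_mul]
  have := (A.valuation_le_one_iff y).mpr hy
  exact mul_lt_one_of_lt_of_le hx this

theorem nonunits_neg {x : L} (hx : x ∈ A.nonunits) : -x ∈ A.nonunits := by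
  rw [ValuationSubring.mem_nonunits_iff] at *
  rwa [Valuation.map_neg]

/-- Horner trick: `A` is the localisation of any integrally closed subring at the centre. -/
theorem exists_mul_mem_aux (B : Subalgebra ℤ L) (hB : ∀ x : L, IsIntegral B x → x ∈ B)
    (a : L) (ha : a ∈ A) (n : ℕ) :
    ∀ g : B[X], g.natDegree ≤ n → aeval a g = 0 → (∃ i, ((g.coeff i : B) : L) ∉ A.nonunits) →
      ∃ y ∈ B, y ∉ A.nonunits ∧ y * a ∈ B := by
  induction n with
  | zero =>
    intro g hdeg hg ⟨i, hi⟩
    exfalso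
    have h0 : g = C (g.coeff 0) := eq_C_of_natDegree_le_zero hdeg
    rw [h0, aeval_C] at hg
    have h1 : g.coeff 0 = 0 := by
      have : ((g.coeff 0 : B) : L) = 0 := hg
      exact_mod_cast this
    rw [h1, map_zero] at h0
    apply hi
    rw [h0]
    simp [ValuationSubring.mem_nonunits_iff]
  | succ n ih =>
    intro g hdeg hg ⟨i, hi⟩
    have hint : ((g.leadingCoeff : B) : L) * a ∈ B := by
      apply hB
      have := isIntegral_leadingCoeff_smul g a hg
      rwa [Algebra.smul_def] at this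
    by_cases hd : ((g.leadingCoeff : B) : L) ∈ A.nonunits
    · by_cases hdeg' : g.natDegree ≤ n
      · exact ih g hdeg' hg ⟨i, hi⟩
      have hn : g.natDegree = n + 1 := by omega
      let g' : B[X] := g.eraseLead + C ⟨_, hint⟩ * X ^ n
      apply ih g'
      · apply (natDegree_add_le _ _).trans
        apply max_le
        · have := eraseLead_natDegree_le g
          omega
        · exact natDegree_C_mul_X_pow_le _ _
      · have h1 : aeval a g = aeval a g.eraseLead + ((g.leadingCoeff : B) : L) * a ^ (n + 1) := by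
          conv_lhs => rw [← eraseLead_add_C_mul_X_pow g]
          simp only [map_add, map_mul, aeval_C, map_pow, aeval_X, hn]
          rfl
        simp only [g', map_add, map_mul, aeval_C, map_pow, aeval_X]
        rw [hg] at h1
        rw [h1]
        have : algebraMap B L ⟨_, hint⟩ = ((g.leadingCoeff : B) : L) * a := rfl
        rw [this]
        ring
      · refine ⟨i, ?_⟩
        have hi' : i ≠ g.natDegree := by
          rintro rfl
          exact hi hd
        simp only [g', coeff_add, eraseLead_coeff, if_neg hi', coeff_C_mul, coeff_X_pow]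
        by_cases hin : i = n
        · simp only [hin, if_true, mul_one]
          intro hmem
          apply hi
          have h2 := nonunits_add A hmem (nonunits_neg A (nonunits_mul_mem A hd ha))
          simp only [Subalgebra.coe_add] at h2
          rw [hin]
          simpa using h2
        · simpa [hin] using hi
    · exact ⟨_, (g.leadingCoeff : B).2, hd, hint⟩

end horner




section loc

variable {L : Type*} [Field L] [CharZero L] [Algebra.IsAlgebraic ℚ L] (A : ValuationSubring L)

theorem intCast_not_mem_nonunits {ℓ : ℕ} (hℓ : ℓ.Prime) (hA : (ℓ : L) ∈ A.nonunits) (m : ℤ)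
    (hm : ¬ (ℓ : ℤ) ∣ m) : (m : L) ∉ A.nonunits := by
  intro hmem
  have hcop : IsCoprime m (ℓ : ℤ) := by
    rw [isCoprime_comm]
    exact (Nat.prime_iff_prime_int.mp hℓ).coprime_iff_not_dvd.mpr hm
  obtain ⟨u, v, huv⟩ := hcop
  have h1 : ((m : L) * (u : L) + (ℓ : L) * (v : L)) ∈ A.nonunits :=
    nonunits_add A (nonunits_mul_mem A hmem (intCast_mem A u))
      (nonunits_mul_mem A hA (intCast_mem A v))
  have h2 : ((m : L) * (u : L) + (ℓ : L) * (v : L)) = 1 := by
    have := congrArg (Int.cast : ℤ → L) huv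
    push_cast at this
    rw [← this]; ring
  rw [h2, ValuationSubring.mem_nonunits_iff, map_one] at h1
  exact lt_irrefl _ h1

theorem exists_mul_mem {ℓ : ℕ} (hℓ : ℓ.Prime) (hA : (ℓ : L) ∈ A.nonunits) (a : L) (ha : a ∈ A) :
    ∃ y ∈ integralClosure ℤ L, y ∉ A.nonunits ∧ y * a ∈ integralClosure ℤ L := by
  have halg : IsAlgebraic ℤ a :=
    (IsFractionRing.isAlgebraic_iff ℤ ℚ L).mpr (Algebra.IsAlgebraic.isAlgebraic a)
  obtain ⟨p, hp0, hp⟩ := halg
  have hprim : p.primPart.IsPrimitive := p.isPrimitive_primPart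
  have hp' : aeval a p.primPart = 0 := by
    have := p.eq_C_content_mul_primPart
    rw [this, map_mul, aeval_C] at hp
    rcases mul_eq_zero.mp hp with h | h
    · exfalso
      have : p.content = 0 := by simpa using h
      exact hp0 (content_eq_zero_iff.mp this)
    · exact h
  have hex : ∃ i, ¬ (ℓ : ℤ) ∣ p.primPart.coeff i := by
    by_contra hcon
    push Not at hcon
    have := hprim (ℓ : ℤ) ((C_dvd_iff_dvd_coeff _ _).mpr hcon)
    exact (Nat.prime_iff_prime_int.mp hℓ).not_unit this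
  obtain ⟨i, hi⟩ := hex
  refine exists_mul_mem_aux A (integralClosure ℤ L) ?_ a ha _
    (p.primPart.map (algebraMap ℤ (integralClosure ℤ L))) le_rfl ?_ ⟨i, ?_⟩
  · intro x hx
    exact isIntegral_trans x hx
  · rw [aeval_map_algebraMap]; exact hp'
  · rw [coeff_map]
    simpa using intCast_not_mem_nonunits A hℓ hA _ hi

end loc




local notation "Lb" => AlgebraicClosure ℚ
local notation "Gb" => (AlgebraicClosure ℚ ≃ₐ[ℚ] AlgebraicClosure ℚ)
local notation "Bb" => integralClosure ℤ (AlgebraicClosure ℚ)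

theorem isAlgebraic_Lb : Algebra.IsAlgebraic ℚ Lb := AlgebraicClosure.isAlgebraic ℚ

theorem isAlgClosure_Lb : IsAlgClosure ℚ Lb := ⟨inferInstance, isAlgebraic_Lb⟩

theorem isGalois_Lb : IsGalois ℚ Lb := by
  have := isAlgClosure_Lb
  exact {}

attribute [local instance] isAlgebraic_Lb isAlgClosure_Lb isGalois_Lb

theorem integralClosure_le (A : ValuationSubring Lb) (x : Lb) (hx : x ∈ Bb) : x ∈ A := by
  have h1 : IsIntegral A x := by
    have hx' : IsIntegral ℤ x := hx
    exact hx'.tower_top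
  obtain ⟨y, hy⟩ := IsIntegrallyClosed.algebraMap_eq_of_integral (R := A) (K := Lb) h1
  rw [← hy]
  exact y.2

/-- the inclusion of the ring of all algebraic integers in a valuation subring. -/
noncomputable def incl (A : ValuationSubring Lb) : Bb →+* A where
  toFun x := ⟨x.1, integralClosure_le A x.1 x.2⟩
  map_one' := rfl
  map_mul' _ _ := rfl
  map_zero' := rfl
  map_add' _ _ := rfl

/-- the centre of the valuation subring on the ring of all algebraic integers. -/
noncomputable def centre (A : ValuationSubring Lb) : Ideal Bb :=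
  (IsLocalRing.maximalIdeal A).comap (incl A)

instance centre_isPrime (A : ValuationSubring Lb) : (centre A).IsPrime :=
  Ideal.comap_isPrime _ _

theorem mem_centre_iff (A : ValuationSubring Lb) (x : Bb) :
    x ∈ centre A ↔ (x : Lb) ∈ A.nonunits := by
  rw [ValuationSubring.mem_nonunits_iff_exists_mem_maximalIdeal]
  constructor
  · intro h
    exact ⟨_, h⟩
  · rintro ⟨_, h⟩
    exact h

theorem isInvariant_Bb : Algebra.IsInvariant ℤ Bb Gb := by
  refine ⟨fun b hb => ?_⟩
  have h1 : (b : Lb) ∈ (⊥ : IntermediateField ℚ Lb) := by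
    rw [InfiniteGalois.mem_bot_iff_fixed]
    intro σ
    have := congrArg Subtype.val (hb σ)
    exact this
  rw [IntermediateField.mem_bot] at h1
  obtain ⟨q, hq⟩ := h1
  have h2 : IsIntegral ℤ q := by
    have : IsIntegral ℤ (algebraMap ℚ Lb q) := by rw [hq]; exact b.2
    exact (isIntegral_algebraMap_iff (algebraMap ℚ Lb).injective).mp this
  obtain ⟨m, hm⟩ := IsIntegrallyClosed.algebraMap_eq_of_integral h2
  refine ⟨m, ?_⟩
  apply Subtype.ext
  rw [← hq, ← hm]
  simp

theorem centre_liesOver (A : ValuationSubring Lb) {ℓ : ℕ} (hℓ : ℓ.Prime)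
    (hA : A.LiesOverPrime ℓ) : (centre A).LiesOver (Ideal.span {(ℓ : ℤ)}) := by
  constructor
  have hmax : (Ideal.span {(ℓ : ℤ)}).IsMaximal :=
    (PrincipalIdealRing.isMaximal_of_irreducible (Nat.prime_iff_prime_int.mp hℓ).irreducible)
  apply hmax.eq_of_le
  · exact (Ideal.IsPrime.under ℤ (centre A)).ne_top
  · rw [Ideal.span_singleton_le_iff_mem, Ideal.mem_comap, mem_centre_iff]
    have hA' : (ℓ : Lb) ∈ A.nonunits := hA
    simpa using hA'

/-- elements of the stabiliser of the centre preserve the valuation subring. -/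
theorem smul_mem_of_stabilizer (A : ValuationSubring Lb) {ℓ : ℕ} (hℓ : ℓ.Prime)
    (hA : A.LiesOverPrime ℓ) (τ : Gb) (hτ : τ • centre A = centre A) (a : Lb) (ha : a ∈ A) :
    τ a ∈ A := by
  obtain ⟨y, hyB, hy, hya⟩ := exists_mul_mem A hℓ hA a ha
  have h1 : τ y ∉ A.nonunits := by
    intro hmem
    apply hy
    have h2 : (τ • (⟨y, hyB⟩ : Bb)) ∈ centre A := by
      rw [mem_centre_iff]; exact hmem
    rw [← hτ, Ideal.smul_mem_pointwise_smul_iff, mem_centre_iff] at h2
    exact h2
  have h3 : τ y ∈ A := integralClosure_le A _ (τ • (⟨y, hyB⟩ : Bb)).2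
  have h4 : τ (y * a) ∈ A := integralClosure_le A _ (τ • (⟨y * a, hya⟩ : Bb)).2
  rw [map_mul] at h4
  rw [ValuationSubring.mem_nonunits_iff, not_lt] at h1
  rw [← ValuationSubring.valuation_le_one_iff] at h3 h4 ⊢
  have h5 : A.valuation (τ y) = 1 := le_antisymm h3 h1
  rwa [map_mul, h5, one_mul] at h4






theorem exists_stabilizer_frob (A : ValuationSubring Lb) {ℓ : ℕ} (hℓ : ℓ.Prime)
    (hA : A.LiesOverPrime ℓ) :
    ∃ σ : Gb, σ • centre A = centre A ∧ ∀ b : Bb, σ • b - b ^ ℓ ∈ centre A := by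
  haveI := centre_liesOver A hℓ hA
  haveI := isInvariant_Bb
  letI : TopologicalSpace Bb := ⊥
  haveI : DiscreteTopology Bb := ⟨rfl⟩
  haveI : ContinuousSMul Gb Bb := by
    rw [continuousSMul_iff_stabilizer_isOpen]
    intro x
    have := stabilizer_isOpen_of_isIntegral (K := ℚ) (L := Lb) (x : Lb)
    convert this using 1
    ext g
    simp only [SetLike.mem_coe, MulAction.mem_stabilizer_iff]
    constructor
    · intro h; exact congrArg Subtype.val h
    · intro h; exact Subtype.ext h
  haveI : Fact ℓ.Prime := ⟨hℓ⟩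
  haveI : CharP (Bb ⧸ centre A) ℓ := by
    rw [CharP.charP_iff_prime_eq_zero hℓ]
    have : ((ℓ : Bb) : Bb ⧸ centre A) = 0 := by
      rw [Ideal.Quotient.eq_zero_iff_mem, mem_centre_iff]
      have hA' : (ℓ : Lb) ∈ A.nonunits := hA
      simpa using hA'
    simpa using this
  let F0 : (Bb ⧸ centre A) →ₐ[ℤ ⧸ Ideal.span {(ℓ : ℤ)}] (Bb ⧸ centre A) :=
    { frobenius (Bb ⧸ centre A) ℓ with
      commutes' := by
        intro r
        obtain ⟨m, rfl⟩ := Ideal.Quotient.mk_surjective r
        have h1 : (Ideal.Quotient.mk (Ideal.span {(ℓ : ℤ)}) m) = (m : ℤ ⧸ Ideal.span {(ℓ : ℤ)}) := by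
          simp
        rw [h1]
        simp }
  have hF0 : ∀ x, F0 x = x ^ ℓ := fun x => rfl
  have hbij : Function.Bijective F0 := by
    constructor
    · exact frobenius_inj (Bb ⧸ centre A) ℓ
    · intro x
      obtain ⟨x, rfl⟩ := Ideal.Quotient.mk_surjective x
      obtain ⟨y, hy⟩ := IsAlgClosed.exists_pow_nat_eq (x : Lb) hℓ.pos
      have hyB : y ∈ Bb := by
        have : IsIntegral ℤ (y ^ ℓ) := by rw [hy]; exact x.2
        exact this.of_pow hℓ.pos
      refine ⟨Ideal.Quotient.mk _ ⟨y, hyB⟩, ?_⟩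
      rw [hF0, ← map_pow]
      congr 1
      exact Subtype.ext hy
  let F : (Bb ⧸ centre A) ≃ₐ[ℤ ⧸ Ideal.span {(ℓ : ℤ)}] (Bb ⧸ centre A) :=
    AlgEquiv.ofBijective F0 hbij
  obtain ⟨σ, hσ⟩ := Ideal.Quotient.stabilizerHom_surjective_of_profinite (G := Gb)
    (Ideal.span {(ℓ : ℤ)}) (centre A) F
  refine ⟨σ.1, σ.2, fun b => ?_⟩
  have h1 := DFunLike.congr_fun hσ (Ideal.Quotient.mk _ b)
  rw [Ideal.Quotient.stabilizerHom_apply] at h1
  have h2 : F (Ideal.Quotient.mk _ b) = (Ideal.Quotient.mk _ b) ^ ℓ := rfl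
  rw [h2, ← map_pow, Ideal.Quotient.eq] at h1
  exact h1






/-- Every valuation subring of `ℚ̄` over a prime `ℓ` has a Frobenius element. -/
theorem exists_isFrobeniusAt (A : ValuationSubring Lb) {ℓ : ℕ} (hℓ : ℓ.Prime)
    (hA : A.LiesOverPrime ℓ) : ∃ σ : Gb, A.IsFrobeniusAt σ ℓ := by
  obtain ⟨σ, hσ, hfrob⟩ := exists_stabilizer_frob A hℓ hA
  have hσinv : σ⁻¹ • centre A = centre A := by
    conv_lhs => rw [← hσ]
    rw [inv_smul_smul]
  have hdec : σ ∈ A.decompositionSubgroup ℚ := by
    rw [MulAction.mem_stabilizer_iff]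
    ext x
    rw [ValuationSubring.mem_pointwise_smul_iff_inv_smul_mem]
    constructor
    · intro h
      have := smul_mem_of_stabilizer A hℓ hA σ hσ _ h
      simpa using this
    · intro h
      exact smul_mem_of_stabilizer A hℓ hA σ⁻¹ hσinv _ h
  refine ⟨σ, hdec, fun x => ?_⟩
  obtain ⟨a, rfl⟩ := IsLocalRing.residue_surjective x
  rw [← IsLocalRing.ResidueField.residue_smul]
  obtain ⟨y, hyB, hy, hya⟩ := exists_mul_mem A hℓ hA a.1 a.2
  -- elements of `A`
  let Y : A := incl A ⟨y, hyB⟩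
  let Z : A := incl A ⟨y * a.1, hya⟩
  have hYZ : Y * a = Z := Subtype.ext rfl
  have hres : ∀ b : Bb, IsLocalRing.residue A ((⟨σ, hdec⟩ : A.decompositionSubgroup ℚ) • incl A b) =
      IsLocalRing.residue A (incl A b) ^ ℓ := by
    intro b
    rw [← map_pow, ← sub_eq_zero, ← map_sub, IsLocalRing.residue_eq_zero_iff]
    exact hfrob b
  have hY0 : IsLocalRing.residue A Y ≠ 0 := by
    rw [Ne, IsLocalRing.residue_eq_zero_iff]
    intro hmem
    apply hy
    rw [ValuationSubring.mem_nonunits_iff_exists_mem_maximalIdeal]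
    exact ⟨_, hmem⟩
  have h1 : IsLocalRing.residue A ((⟨σ, hdec⟩ : A.decompositionSubgroup ℚ) • (Y * a)) =
      IsLocalRing.residue A (Y * a) ^ ℓ := by
    rw [hYZ]; exact hres _
  rw [smul_mul', map_mul, map_mul, hres, mul_pow] at h1
  exact mul_left_cancel₀ (pow_ne_zero _ hY0) h1

/-- Over every prime there is a valuation subring of `ℚ̄`. -/
theorem exists_liesOverPrime {ℓ : ℕ} (hℓ : ℓ.Prime) :
    ∃ A : ValuationSubring Lb, A.LiesOverPrime ℓ := by
  haveI hprime : (Ideal.span {(ℓ : ℤ)}).IsPrime :=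
    (Ideal.span_singleton_prime (by exact_mod_cast hℓ.ne_zero)).mpr (Nat.prime_iff_prime_int.mp hℓ)
  let R := Localization.AtPrime (Ideal.span {(ℓ : ℤ)})
  let f : R →+* Lb := IsLocalization.lift (M := (Ideal.span {(ℓ : ℤ)}).primeCompl)
    (g := algebraMap ℤ Lb) (by
      intro y
      apply IsUnit.mk0
      have hy : (y : ℤ) ≠ 0 := by
        intro h
        exact y.2 (by rw [h]; exact Ideal.zero_mem _)
      simpa using hy)
  obtain ⟨A, hA, hloc⟩ := IsLocalRing.exists_factor_valuationRing f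
  refine ⟨A, ?_⟩
  have h1 : ¬ IsUnit (algebraMap ℤ R (ℓ : ℤ)) := by
    intro hu
    have := (IsLocalization.AtPrime.isUnit_to_map_iff R (Ideal.span {(ℓ : ℤ)}) (ℓ : ℤ)).mp hu
    exact this (Ideal.mem_span_singleton_self _)
  have h2 : ¬ IsUnit ((f.codRestrict A.toSubring hA) (algebraMap ℤ R (ℓ : ℤ))) := by
    intro hu
    exact h1 (hloc.map_nonunit _ hu)
  have h3 : f (algebraMap ℤ R (ℓ : ℤ)) = (ℓ : Lb) := by
    simp [f]
  show (ℓ : Lb) ∈ A.nonunits
  rw [ValuationSubring.mem_nonunits_iff_exists_mem_maximalIdeal]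
  refine ⟨by rw [← h3]; exact hA _, ?_⟩
  rw [IsLocalRing.mem_maximalIdeal, mem_nonunits_iff]
  convert h2 using 2
  exact Subtype.ext h3.symm

theorem exists_frob (ℓ : ℕ) (hℓ : ℓ.Prime) :
    ∃ (A : ValuationSubring (AlgebraicClosure ℚ))
      (σ : AlgebraicClosure ℚ ≃ₐ[ℚ] AlgebraicClosure ℚ),
      A.LiesOverPrime ℓ ∧ A.IsFrobeniusAt σ ℓ := by
  obtain ⟨A, hA⟩ := exists_liesOverPrime hℓ
  obtain ⟨σ, hσ⟩ := exists_isFrobeniusAt A hℓ hA
  exact ⟨A, σ, hA, hσ⟩

end Fermat.Agent.S54
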